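import Fermat.Agent.Route.Five
import Fermat.Agent.ThreeFive.SwitchFrey
import Fermat.Agent.EigenSystems.ModelIndependent
import Fermat.Agent.EigenSystems.FromForms

/-!
# Modularity of the Frey curve from the switch and lifting at five

`SwitchModular` is the output of the two-adic half: a curve with the properties produced by the
switch is modular at a squarefree level.
-/

set_option autoImplicit false

open WeierstrassCurve WeierstrassCurve.Affine WeierstrassCurve.Affine.Point

namespace Fermat.Agent.Route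

/-- A semistable curve with negative discriminant `4ᵏ r`, `0 < k`, `r ≡ 5 (mod 8)`, and without
rational two-torsion is modular at a squarefree level. -/
def SwitchModular : Prop :=
  ∀ W' : WeierstrassCurve ℤ, W'.IsSemistableModel → W'.Δ < 0 →
    (∃ (k : ℕ) (r : ℤ), 0 < k ∧ W'.Δ = 4 ^ k * r ∧ r % 8 = 5) →
    (∀ x : ℚ, x ^ 3 + (-27 * (W'.c₄ : ℚ)) * x + (-54 * (W'.c₆ : ℚ)) ≠ 0) →
    ∃ N : ℕ, 0 < N ∧ Squarefree N ∧ W'.IsModularModelOfLevel N

/-- The Frey curve is residually modular at five, at a squarefree level. -/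
theorem residuallyModular_five (hS : SwitchModular) (P : FreyPackage) :
    ∃ N : ℕ, Squarefree N ∧ P.freyCurveInt.IsResiduallyModularOfLevel 5 N := by
  classical
  haveI : Fact (Nat.Prime 5) := ⟨by norm_num⟩
  obtain ⟨W', hss, hneg, hdisc, -, -, -, -, hcub, -, -, hcongr⟩ :=
    ThreeFive.exists_switch_frey P 1 (by decide)
  obtain ⟨N, hN, hsq, f, hf, hcoef⟩ := hS W' hss hneg hdisc hcub
  haveI : NeZero N := ⟨hN.ne'⟩
  obtain ⟨𝔪, h𝔪, h5𝔪⟩ :=
    FLTPrelim.exists_maximalIdeal_natCast_prime_mem (show Nat.Prime 5 by norm_num)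
  refine ⟨N, hsq, f, 𝔪, hf, h𝔪, h5𝔪, ?_⟩
  have hΔ0 := MultRed.freyCurveInt_Δ_ne_zero P
  haveI : (P.freyCurveInt.map (Int.castRingHom ℚ)).IsElliptic :=
    BigImage.isElliptic_of_Δ_ne_zero hΔ0
  have hmodel : P.freyCurveInt.IsIntegralModelOf (P.freyCurveInt.map (Int.castRingHom ℚ)) :=
    ⟨1, one_smul _ _⟩
  refine EigenSystems.congr_everywhere hmodel hmodel hf h5𝔪
    (insert 5 (P.freyCurveInt.Δ.natAbs.primeFactors ∪ W'.Δ.natAbs.primeFactors ∪ N.primeFactors))
    fun ℓ hℓ hℓS => ?_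
  simp only [Finset.mem_insert, Finset.mem_union, Nat.mem_primeFactors, hℓ, true_and, ne_eq,
    Int.natAbs_eq_zero, hΔ0, hneg.ne, hN.ne', not_false_eq_true, and_true, not_or] at hℓS
  obtain ⟨h5, ⟨hP, hW⟩, hℓN⟩ := hℓS
  have hgP : P.freyCurveInt.IsGoodPrimeFor ℓ := fun h => hP (Int.natCast_dvd.mp h)
  have hgW : W'.IsGoodPrimeFor ℓ := fun h => hW (Int.natCast_dvd.mp h)
  refine ⟨⟨ModularFormClass.qCoeff f ℓ, EigenSystems.isIntegral_qCoeff hf ℓ⟩, rfl, ?_⟩
  obtain ⟨c, hc⟩ := hcongr ℓ hℓ h5 hgP hgW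
  have e : (⟨ModularFormClass.qCoeff f ℓ, EigenSystems.isIntegral_qCoeff hf ℓ⟩ :
      integralClosure ℤ ℂ) = ((W'.apOfModel ℓ : ℤ) : integralClosure ℤ ℂ) :=
    Subtype.ext (by simpa using hcoef ℓ hℓ hgW hℓN)
  rw [e, ← Int.cast_sub, hc, Int.cast_mul]
  exact 𝔪.mul_mem_right _ (by exact_mod_cast h5𝔪)

/-- The standard model of the Frey curve is modular at a squarefree level whose primes are bad. -/
theorem frey_modularModel (hS : SwitchModular) (hL : Engine.LiftingAtFive) (P : FreyPackage) :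
    ∃ N : ℕ, 0 < N ∧ Squarefree N ∧
      (∀ q : ℕ, q.Prime → q ∣ N → (q : ℤ) ∣ P.freyCurveInt.Δ) ∧
      P.freyCurveInt.IsModularModelOfLevel N := by
  haveI : Fact (Nat.Prime 5) := ⟨by norm_num⟩
  exact hL P.freyCurveInt (residual_five P) (frey_five_shape P) (residuallyModular_five hS P)

/-- Modularity of the Frey curve (statement S04). -/
theorem frey_isModular (hS : SwitchModular) (hL : Engine.LiftingAtFive) (P : FreyPackage) :
    P.freyCurve.IsModular := by
  obtain ⟨N, hN, -, -, hmod⟩ := frey_modularModel hS hL P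
  exact ⟨P.freyCurveInt, ⟨1, by rw [one_smul, MultRed.freyCurveInt_map]⟩, N, hN, hmod⟩

/-- Residual modularity at a conductor level (statement S06). -/
theorem conductorModularity_of (hS : SwitchModular) (hL : Engine.LiftingAtFive) :
    ConductorModularity := by
  intro P
  obtain ⟨N, hN, hsq, hsupp, hmod⟩ := frey_modularModel hS hL P
  haveI : NeZero N := ⟨hN.ne'⟩
  refine Engine.conductorModularity_at P hN hsq (fun q hq hqN => ?_)
    (fun f hf ℓ => EigenSystems.isIntegral_qCoeff hf ℓ) hmod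
  rcases eq_or_ne q 2 with rfl | hq2
  · exact ((MultRed.two_dvd_frey_b P).mul_left P.a).mul_right P.c
  · exact (MultRed.dvd_freyCurveInt_Δ_iff P hq hq2).1 (hsupp q hq hqN)

end Fermat.Agent.Route
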