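import Fermat.Agent.TwoAdic.Route.Main
import Fermat.Agent.TwoAdic.Route.FinalProof
import Fermat.Agent.SquareOld.SquareInput

/-!
# `SwitchModular`, unconditionally
-/

set_option autoImplicit false

namespace Fermat.Agent.Route

/-- Switched curves are modular at a squarefree level. -/
theorem switchModular : SwitchModular :=
  TwoAdic.TopDown.switchModular_of_finalStep TwoAdic.TopDown.finalStep SquareOld.squareInput

end Fermat.Agent.Route
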