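import Fermat.Agent.Engine.Goals
import Fermat.Agent.EigenSystems.ModelIndependent

/-!
# Removing the primes away from `p`

Statement S43 from the outputs of the semistable reduction theory and of patching, and removal
down to a divisor of `2p` keeping track of the level (used for S44).
-/

set_option autoImplicit false

open WeierstrassCurve WeierstrassCurve.Affine WeierstrassCurve.Affine.Point

namespace Fermat.Agent.Route

/-- Statement S43. -/
theorem removeAwayFromP_of' (hMazur : Engine.MazurPrinciple)
    (hOne : Engine.LoweringAtOneModP) : RemoveAwayFromP :=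
  Engine.removeAwayFromP_of hMazur hOne EigenSystems.residualModelIndependent

/-- Removal down to a divisor of `2p`, keeping track of the level. -/
theorem exists_level_dvd_both (hq : RemoveAwayFromP) (P : FreyPackage)
    (hirr : GaloisRepIsIrreducible (K := AlgebraicClosure ℚ) ℚ P.freyCurve P.p)
    (N : ℕ) (hN : P.IsConductorLevel N) (hmod : P.ModularRepOfLevel N) :
    ∃ M : ℕ, M ∣ N ∧ M ∣ 2 * P.p ∧ P.ModularRepOfLevel M := by
  induction N using Nat.strong_induction_on with
  | _ N ih =>
    by_cases h2 : N ∣ 2 * P.p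
    · exact ⟨N, dvd_rfl, h2, hmod⟩
    obtain ⟨q, hqp, hqN, hq2, hqP⟩ : ∃ q : ℕ, q.Prime ∧ q ∣ N ∧ q ≠ 2 ∧ q ≠ P.p := by
      by_contra hcon
      push Not at hcon
      apply h2
      rw [← Nat.prod_primeFactors_of_squarefree hN.squarefree]
      have hsub : N.primeFactors ⊆ {2, P.p} := by
        intro r hr
        rw [Finset.mem_insert, Finset.mem_singleton]
        by_cases h : r = 2
        · exact Or.inl h
        · exact Or.inr (hcon r (Nat.prime_of_mem_primeFactors hr)
            (Nat.dvd_of_mem_primeFactors hr) h)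
      have hne : (2 : ℕ) ≠ P.p := by have := P.hp5; omega
      simpa [Finset.prod_pair hne] using Finset.prod_dvd_prod_of_subset _ _ (fun r : ℕ => r) hsub
    obtain ⟨M, hMN, hqM, hM⟩ :=
      hq P hN hqp hq2 hqP hqN hirr hmod (Fermat.Agent.S05.result P hqp hq2 hqP)
    have hMpos : 0 < M := Nat.pos_of_dvd_of_pos hMN hN.pos
    have hne : M ≠ N := fun h => hqM (h ▸ hqN)
    obtain ⟨M', h1, h2', h3⟩ :=
      ih M (lt_of_le_of_ne (Nat.le_of_dvd hN.pos hMN) hne) (hN.of_dvd hMN hMpos) hM
    exact ⟨M', h1.trans hMN, h2', h3⟩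

end Fermat.Agent.Route
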