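import Fermat.Agent.Engine.Goals
import Fermat.Agent.FreyFive.Main
import Fermat.Agent.BigImage.IndexTwo
import Fermat.Agent.EllTorsion.Count

/-!
# The hypotheses of lifting at five for the Frey curve

`E[5]` is irreducible and irreducible on index two subgroups, and at `5` the curve is
multiplicative or has trace `a` with `a ≢ 0, ±1 (mod 5)` (it has full rational two-torsion).
-/

set_option autoImplicit false

open WeierstrassCurve WeierstrassCurve.Affine WeierstrassCurve.Affine.Point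

namespace Fermat.Agent.Route

/-- The residual hypotheses at five. -/
theorem residual_five [Fact (Nat.Prime 5)] (P : FreyPackage) :
    Engine.Residual P.freyCurveInt 5 := by
  have hΔ0 := MultRed.freyCurveInt_Δ_ne_zero P
  haveI := BigImage.isElliptic_of_Δ_ne_zero hΔ0
  have hirr : GaloisRepIsIrreducible (K := AlgebraicClosure ℚ) ℚ
      (P.freyCurveInt.map (Int.castRingHom ℚ)) 5 := by
    rw [MultRed.freyCurveInt_map]; exact FreyFive.frey_five_irreducible P
  refine ⟨le_rfl, hΔ0, fun q hq h => MultRed.not_dvd_freyCurveInt_c₄ P hq h, hirr, ?_⟩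
  intro hcard hker K _ _ G hG V hV
  exact BigImage.frey_five_index_two_irreducible P hirr K G hG V hV

/-- The count of the affine points of the reduction at five. -/
theorem frey_count_five : ∀ A B : ZMod 5, A ≠ 0 → B ≠ 0 → A + B ≠ 0 →
    let n : ZMod 5 := ((Finset.univ.filter fun v : ZMod 5 × ZMod 5 =>
      v.2 ^ 2 + v.1 * v.2 =
        v.1 ^ 3 + 4 * (B - 1 - A) * v.1 ^ 2 + -(A * B) * v.1).card : ℕ)
    n ≠ 0 ∧ n ^ 2 ≠ 1 := by
  decide

/-- At five the Frey curve is multiplicative, or ordinary with trace of square `≢ 1 (mod 5)`. -/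
theorem frey_five_shape (P : FreyPackage) : ¬ P.freyCurveInt.IsGoodPrimeFor 5 ∨
    (¬ (5 : ℤ) ∣ P.freyCurveInt.apOfModel 5 ∧
      ¬ (5 : ℤ) ∣ P.freyCurveInt.apOfModel 5 ^ 2 - 1) := by
  by_cases hgood : P.freyCurveInt.IsGoodPrimeFor 5
  swap
  · exact Or.inl hgood
  refine Or.inr ?_
  haveI : Fact (Nat.Prime 5) := ⟨by norm_num⟩
  have habc : ¬ (5 : ℤ) ∣ P.a * P.b * P.c := fun h =>
    hgood ((MultRed.dvd_freyCurveInt_Δ_iff P (by norm_num) (by norm_num)).2 h)
  have hp0 : P.p ≠ 0 := by have := P.hp5; omega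
  set A : ZMod 5 := (P.a : ZMod 5) ^ P.p with hA
  set B : ZMod 5 := (P.b : ZMod 5) ^ P.p with hB
  have hne : ∀ z : ℤ, z ∣ P.a * P.b * P.c → (z : ZMod 5) ≠ 0 := fun z hz h =>
    habc ((show (5 : ℤ) ∣ z from (ZMod.intCast_zmod_eq_zero_iff_dvd z 5).1 h).trans hz)
  have hA0 : A ≠ 0 := pow_ne_zero _ (hne _ ((dvd_mul_right P.a P.b).mul_right P.c))
  have hB0 : B ≠ 0 := pow_ne_zero _ (hne _ ((dvd_mul_left P.b P.a).mul_right P.c))
  have hC0 : A + B ≠ 0 := by
    have h := congrArg (fun z : ℤ => (z : ZMod 5)) P.hFLT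
    push_cast at h
    rw [hA, hB, h]
    exact pow_ne_zero _ (hne _ (dvd_mul_left P.c (P.a * P.b)))
  obtain ⟨k, hk⟩ := MultRed.four_dvd_frey_a₂num P
  obtain ⟨m, hm⟩ := MultRed.sixteen_dvd_frey_a₄num P
  have hkA : (k : ZMod 5) = 4 * (B - 1 - A) := by
    have h := congrArg (fun z : ℤ => (z : ZMod 5)) hk
    push_cast at h
    rw [hA, hB, h, ← mul_assoc, show (4 : ZMod 5) * 4 = 1 from rfl, one_mul]
  have hmA : (m : ZMod 5) = -(A * B) := by
    have h := congrArg (fun z : ℤ => (z : ZMod 5)) hm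
    push_cast at h
    rw [hA, hB, ← neg_mul, h, show (16 : ZMod 5) = 1 from rfl, one_mul]
  set E := P.freyCurveInt.reductionMod 5 with hE
  have hEΔ : E.Δ ≠ 0 := by
    rw [hE, WeierstrassCurve.reductionMod, WeierstrassCurve.map_Δ, eq_intCast]
    exact fun h => hgood ((ZMod.intCast_zmod_eq_zero_iff_dvd _ 5).1 h)
  haveI : E.IsElliptic := ⟨IsUnit.mk0 _ hEΔ⟩
  have hEq : ∀ x y : ZMod 5, E.toAffine.Equation x y ↔
      y ^ 2 + x * y = x ^ 3 + 4 * (B - 1 - A) * x ^ 2 + -(A * B) * x := by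
    intro x y
    rw [Affine.equation_iff]
    have h2 : P.freyCurveInt.a₂ = k := by
      show (P.b ^ P.p - 1 - P.a ^ P.p) / 4 = k
      rw [hk, Int.mul_ediv_cancel_left _ (by norm_num)]
    have h4 : P.freyCurveInt.a₄ = m := by
      show -(P.a ^ P.p) * P.b ^ P.p / 16 = m
      rw [hm, Int.mul_ediv_cancel_left _ (by norm_num)]
    simp only [hE, WeierstrassCurve.reductionMod, WeierstrassCurve.map, eq_intCast, h2, h4,
      hkA, hmA, show P.freyCurveInt.a₁ = 1 from rfl, show P.freyCurveInt.a₃ = 0 from rfl,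
      show P.freyCurveInt.a₆ = 0 from rfl, Int.cast_one, Int.cast_zero]
    constructor <;> intro h <;> linear_combination h
  have hcard : (P.freyCurveInt.apOfModel 5 : ZMod 5) =
      -(((Finset.univ.filter fun v : ZMod 5 × ZMod 5 => v.2 ^ 2 + v.1 * v.2 =
        v.1 ^ 3 + 4 * (B - 1 - A) * v.1 ^ 2 + -(A * B) * v.1).card : ℕ) : ZMod 5) := by
    classical
    rw [WeierstrassCurve.apOfModel, ← hE, WeierstrassCurve.traceOfFrobenius,
      WeierstrassCurve.card, Nat.card_congr E.toAffine.pointEquiv,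
      show Nat.card (WithZero {xy : ZMod 5 × ZMod 5 // E.toAffine.Equation xy.1 xy.2}) =
        Nat.card {xy : ZMod 5 × ZMod 5 // E.toAffine.Equation xy.1 xy.2} + 1 from
          Finite.card_option, Nat.card_zmod,
      Nat.card_congr (Equiv.subtypeEquivRight (p := fun v : ZMod 5 × ZMod 5 => E.toAffine.Equation v.1 v.2) fun v => hEq v.1 v.2), Nat.card_eq_fintype_card,
      Fintype.card_subtype]
    push_cast
    rw [show (6 : ZMod 5) = 1 from rfl]
    ring
  obtain ⟨h0, h1⟩ := frey_count_five A B hA0 hB0 hC0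
  constructor <;> intro h
  · have h' : (P.freyCurveInt.apOfModel 5 : ZMod 5) = 0 :=
      (ZMod.intCast_zmod_eq_zero_iff_dvd _ 5).2 h
    rw [hcard, neg_eq_zero] at h'
    exact h0 h'
  · have h' : ((P.freyCurveInt.apOfModel 5 ^ 2 - 1 : ℤ) : ZMod 5) = 0 :=
      (ZMod.intCast_zmod_eq_zero_iff_dvd _ 5).2 h
    push_cast at h'
    rw [hcard, neg_sq, sub_eq_zero] at h'
    exact h1 h'

end Fermat.Agent.Route
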