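import Fermat.Agent.Route.Main
import Fermat.Agent.Mazur.EndGame.MazurFrey
import Fermat.Agent.Mazur.EndGame.Chain
import Fermat.Agent.S14

/-!
# Irreducibility of the Frey representations from Mazur's third step

Statement S09 from statement S15, through S12 and the small exponents.
-/

set_option autoImplicit false

open WeierstrassCurve WeierstrassCurve.Affine WeierstrassCurve.Affine.Point

namespace Fermat.Agent.Route

/-- No cofixed line for `p ≥ 17`, from the third step. -/
theorem noCofixedLarge_of (h3 : Mazur.EndGame.StepThree) (P : FreyPackage) (hp : 17 ≤ P.p) :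
    ¬ HasGaloisStableCofixedLine (K := AlgebraicClosure ℚ) ℚ P.freyCurve P.p :=
  Mazur.EndGame.frey_no_cofixed_large_of h3 (fun _ _ h => Fermat.Agent.S14.result h) P hp

/-- Irreducibility from the third step. -/
theorem irreducibility_of (h3 : Mazur.EndGame.StepThree) : Irreducibility :=
  Mazur.EndGame.mazur_frey_of (noCofixedLarge_of h3)

end Fermat.Agent.Route
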