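import Fermat.Prelude.Def_FreyPackage_GaloisRep
import Fermat.Prelude.Def_FreyPackage_IsConductorLevel
import Fermat.Prelude.Def_FLTPrelim_ModularRep
import Fermat.Agent.S02
import Fermat.Agent.S05
import Fermat.Agent.S07
import Fermat.Agent.S08
import Mathlib.NumberTheory.FLT.Four
import Mathlib.NumberTheory.FLT.Three

/-!
# Top of the proof: from the four main inputs to Fermat's Last Theorem

The four inputs are irreducibility (S09), residual modularity at some conductor level (S06),
removal of an odd prime `q ≠ p` from the level (S43) and removal of `p` from the level (S44).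
-/

set_option autoImplicit false

open WeierstrassCurve WeierstrassCurve.Affine WeierstrassCurve.Affine.Point

namespace Fermat.Agent.Route

/-- Irreducibility of the mod-`p` representation of a Frey curve (statement S09). -/
def Irreducibility : Prop :=
  ∀ P : FreyPackage, GaloisRepIsIrreducible (K := AlgebraicClosure ℚ) ℚ P.freyCurve P.p

/-- Residual modularity at some conductor level (statement S06). -/
def ConductorModularity : Prop :=
  ∀ P : FreyPackage, ∃ N : ℕ, P.IsConductorLevel N ∧ P.ModularRepOfLevel N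

/-- An odd prime `q ≠ p` unramified in the representation leaves the level (statement S43). -/
def RemoveAwayFromP : Prop :=
  ∀ (P : FreyPackage) {N q : ℕ}, P.IsConductorLevel N → q.Prime → q ≠ 2 → q ≠ P.p → q ∣ N →
    GaloisRepIsIrreducible (K := AlgebraicClosure ℚ) ℚ P.freyCurve P.p →
    P.ModularRepOfLevel N → P.GaloisRepUnramifiedAt q →
    ∃ M : ℕ, M ∣ N ∧ ¬ q ∣ M ∧ P.ModularRepOfLevel M

/-- The prime `p` leaves the level (statement S44). -/
def RemoveP : Prop :=
  ∀ (P : FreyPackage) {N : ℕ}, P.IsConductorLevel N → P.p ∣ N →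
    GaloisRepIsIrreducible (K := AlgebraicClosure ℚ) ℚ P.freyCurve P.p →
    P.ModularRepOfLevel N → ∃ M : ℕ, M ∣ N ∧ ¬ P.p ∣ M ∧ P.ModularRepOfLevel M

/-- Levels can be reduced to a divisor of `2`. -/
theorem exists_level_dvd_two (hq : RemoveAwayFromP) (hp : RemoveP) (P : FreyPackage)
    (hirr : GaloisRepIsIrreducible (K := AlgebraicClosure ℚ) ℚ P.freyCurve P.p)
    (N : ℕ) (hN : P.IsConductorLevel N) (hmod : P.ModularRepOfLevel N) :
    ∃ M : ℕ, M ∣ 2 ∧ P.ModularRepOfLevel M := by
  induction N using Nat.strong_induction_on with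
  | _ N ih =>
    by_cases h2 : N ∣ 2
    · exact ⟨N, h2, hmod⟩
    obtain ⟨q, hqp, hqN, hq2⟩ : ∃ q : ℕ, q.Prime ∧ q ∣ N ∧ q ≠ 2 := by
      by_contra hcon
      push Not at hcon
      apply h2
      rw [← Nat.prod_primeFactors_of_squarefree hN.squarefree]
      have hsub : N.primeFactors ⊆ {2} := by
        intro r hr
        rw [Finset.mem_singleton]
        exact hcon r (Nat.prime_of_mem_primeFactors hr) (Nat.dvd_of_mem_primeFactors hr)
      simpa using Finset.prod_dvd_prod_of_subset _ _ (fun r : ℕ => r) hsub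
    obtain ⟨M, hMN, hqM, hM⟩ : ∃ M : ℕ, M ∣ N ∧ ¬ q ∣ M ∧ P.ModularRepOfLevel M := by
      by_cases hqP : q = P.p
      · subst hqP
        exact hp P hN hqN hirr hmod
      · exact hq P hN hqp hq2 hqP hqN hirr hmod (Fermat.Agent.S05.result P hqp hq2 hqP)
    have hMpos : 0 < M := Nat.pos_of_dvd_of_pos hMN hN.pos
    have hne : M ≠ N := fun h => hqM (h ▸ hqN)
    exact ih M (lt_of_le_of_ne (Nat.le_of_dvd hN.pos hMN) hne) (hN.of_dvd hMN hMpos) hM

/-- No Frey package exists, given the four inputs. -/
theorem no_freyPackage (hI : Irreducibility) (hM : ConductorModularity) (hq : RemoveAwayFromP)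
    (hp : RemoveP) (P : FreyPackage) : False := by
  obtain ⟨N, hN, hmod⟩ := hM P
  obtain ⟨M, hM2, f, W, 𝔪, hf, -⟩ := exists_level_dvd_two hq hp P (hI P) N hN hmod
  refine hf.ne_zero ?_
  rcases (Nat.dvd_prime Nat.prime_two).1 hM2 with rfl | rfl
  · exact Fermat.Agent.S08.result f
  · exact Fermat.Agent.S07.result f


/-- Fermat's Last Theorem, given that there is no Frey package. -/
theorem fermat_of_no_freyPackage (h : FreyPackage → False) (n : ℕ) (hn : 3 ≤ n) (a b c : ℕ)
    (ha : 0 < a) (hb : 0 < b) (hc : 0 < c) : a ^ n + b ^ n ≠ c ^ n := by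
  have key : FermatLastTheorem := by
    refine FermatLastTheorem.of_odd_primes fun p pp hodd => ?_
    by_cases h5 : 5 ≤ p
    · rw [fermatLastTheoremFor_iff_int]
      intro x y z hx hy hz h'
      exact (Fermat.Agent.S02.result x y z hx hy hz p pp h5 h').elim h
    · have h2 := pp.two_le
      obtain rfl : p = 3 := by
        interval_cases p <;> first | rfl | norm_num [Nat.odd_iff] at *
      exact fermatLastTheoremThree
  exact key n hn a b c ha.ne' hb.ne' hc.ne'

end Fermat.Agent.Route
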