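import Fermat.Agent.Route.Irreducible
import Fermat.Agent.Mazur.Main

/-!
# The third step of Mazur's argument, in the form the route consumes
-/

set_option autoImplicit false

namespace Fermat.Agent.Route

/-- Mazur's third step. -/
theorem stepThree : Mazur.EndGame.StepThree :=
  fun hp hp' W hΔ Q hfix hord h2Δ h2c h2 h3Δ h3c h3 _ hℓ hℓp hd hn A hA =>
    Mazur.not_inZeroComponentAt hp hp' W hΔ Q hfix hord h2Δ h2c h2 h3Δ h3c h3 hℓ hℓp hd hn A hA

end Fermat.Agent.Route
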