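import Fermat.Agent.Route.Top
import Fermat.Agent.Route.StepThree
import Fermat.Agent.MazurPrinciple.Principle

/-!
# The top rows from the three engine endpoints

Mazur's third step and Mazur's principle are discharged here; the switch, lifting at five and
lowering at `q ≡ 1 (mod p)` are hypotheses, supplied in `Route/SwitchFinal` and `Engine/Top`.
-/

set_option autoImplicit false

open WeierstrassCurve WeierstrassCurve.Affine WeierstrassCurve.Affine.Point
open CuspForm ModularFormClass UpperHalfPlane
open FreyPackage

namespace Fermat.Agent.Route

/-- The endpoints from the other three. -/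
theorem inputs_of (hS : SwitchModular) (hL : Engine.LiftingAtFive)
    (h1 : Engine.LoweringAtOneModP) : Inputs :=
  ⟨stepThree, hS, hL, MazurPrinciple.mazurPrinciple, h1⟩

/-- Statement S03 from the three engine endpoints. -/
theorem no_freyPackage_row (hS : SwitchModular) (hL : Engine.LiftingAtFive)
    (h1 : Engine.LoweringAtOneModP) (P : FreyPackage) : False :=
  no_freyPackage_of_inputs (inputs_of hS hL h1) P

/-- Statement S01 from the three engine endpoints. -/
theorem fermat_row (hS : SwitchModular) (hL : Engine.LiftingAtFive)
    (h1 : Engine.LoweringAtOneModP) (n : ℕ) (hn : 3 ≤ n) (a b c : ℕ) (ha : 0 < a) (hb : 0 < b)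
    (hc : 0 < c) : a ^ n + b ^ n ≠ c ^ n :=
  fermat_of_inputs (inputs_of hS hL h1) n hn a b c ha hb hc

end Fermat.Agent.Route
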