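import Fermat.Agent.Route.Irreducible
import Fermat.Agent.Route.Modularity
import Fermat.Agent.Route.Lowering
import Fermat.Agent.LevelP.RemoveP

/-!
# Fermat's Last Theorem from the five endpoints of the parts of the proof
-/

set_option autoImplicit false

namespace Fermat.Agent.Route

/-- The endpoints of the parts of the proof. -/
structure Inputs : Prop where
  stepThree : Mazur.EndGame.StepThree
  switchModular : SwitchModular
  lifting : Engine.LiftingAtFive
  mazurPrinciple : Engine.MazurPrinciple
  loweringOne : Engine.LoweringAtOneModP

/-- No Frey package, given the endpoints. -/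
theorem no_freyPackage_of_inputs (h : Inputs) (P : FreyPackage) : False :=
  no_freyPackage (irreducibility_of h.stepThree) (conductorModularity_of h.switchModular h.lifting)
    (removeAwayFromP_of' h.mazurPrinciple h.loweringOne)
    (LevelP.removeP_of (removeAwayFromP_of' h.mazurPrinciple h.loweringOne)) P

/-- Fermat's Last Theorem, given the endpoints. -/
theorem fermat_of_inputs (h : Inputs) (n : ℕ) (hn : 3 ≤ n) (a b c : ℕ) (ha : 0 < a) (hb : 0 < b)
    (hc : 0 < c) : a ^ n + b ^ n ≠ c ^ n :=
  fermat_of_no_freyPackage (no_freyPackage_of_inputs h) n hn a b c ha hb hc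

end Fermat.Agent.Route
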